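import Mathlib.RingTheory.PrincipalIdealDomain
import Mathlib.Tactic

/-!
# An abstract model of `ℤ[ω]` with its conjugation

Used so that the orbit lemmas apply to any concrete model of the ring of integers of `ℚ(√-3)`.
-/

set_option autoImplicit false

namespace Fermat.Agent.LT.Orbit

/-- A commutative ring with an element `w` (a primitive cube root of unity) generating it over `ℤ`
and the conjugation `conj`. -/
structure EisData (O : Type*) [CommRing O] where
  w : O
  conj : O →+* O
  w_eq : w ^ 2 + w + 1 = 0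
  conj_w : conj w = -1 - w
  repr : ∀ x : O, ∃ a b : ℤ, x = (a : O) + (b : O) * w
  indep : ∀ a b : ℤ, (a : O) + (b : O) * w = 0 → a = 0 ∧ b = 0

namespace EisData

variable {O : Type*} [CommRing O] (E : EisData O)

/-- `√-3 = 1 + 2ω`. -/
def s : O := 1 + 2 * E.w

theorem s_sq : E.s * E.s = -3 := by
  unfold s; linear_combination 4 * E.w_eq

theorem conj_s : E.conj E.s = -E.s := by
  unfold s; rw [map_add, map_mul, map_one, map_ofNat, E.conj_w]; ring

theorem w_mul_conj : E.w * E.conj E.w = 1 := by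
  rw [E.conj_w]; linear_combination -E.w_eq

theorem conj_conj (x : O) : E.conj (E.conj x) = x := by
  obtain ⟨a, b, rfl⟩ := E.repr x
  simp only [map_add, map_mul, map_intCast, E.conj_w, map_sub, map_neg, map_one]
  ring

include E in
theorem intCast_inj {a b : ℤ} (h : (a : O) = (b : O)) : a = b := by
  have := (E.indep (a - b) 0 (by push_cast; rw [h]; ring)).1
  omega

theorem ext_coords {a b a' b' : ℤ} (h : (a : O) + (b : O) * E.w = (a' : O) + (b' : O) * E.w) :
    a = a' ∧ b = b' := by
  have := E.indep (a - a') (b - b') (by push_cast; linear_combination h)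
  omega

theorem sub_conj (a b : ℤ) :
    ((a : O) + (b : O) * E.w) - E.conj ((a : O) + (b : O) * E.w) = (b : O) * E.s := by
  simp only [map_add, map_mul, map_intCast, E.conj_w, s]; ring

theorem conj_eq_self_iff {x : O} : E.conj x = x ↔ ∃ a : ℤ, x = (a : O) := by
  refine ⟨fun h => ?_, fun ⟨a, ha⟩ => by rw [ha, map_intCast]⟩
  obtain ⟨a, b, rfl⟩ := E.repr x
  have h1 := E.sub_conj a b
  rw [h, sub_self] at h1
  have h2 : ((0 : ℤ) : O) = (((-3) * b : ℤ) : O) := by
    push_cast; linear_combination E.s * h1 + (b : O) * E.s_sq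
  have := E.intCast_inj h2
  exact ⟨a, by rw [show b = 0 by omega]; simp⟩

/-- Multiples of `n` in coordinates. -/
theorem dvd_iff {n a b : ℤ} :
    (n : O) ∣ (a : O) + (b : O) * E.w ↔ n ∣ a ∧ n ∣ b := by
  constructor
  · rintro ⟨y, hy⟩
    obtain ⟨c, d, rfl⟩ := E.repr y
    have := E.ext_coords (a := a) (b := b) (a' := n * c) (b' := n * d)
      (by rw [hy]; push_cast; ring)
    exact ⟨⟨c, this.1⟩, ⟨d, this.2⟩⟩
  · rintro ⟨⟨c, rfl⟩, ⟨d, rfl⟩⟩
    exact ⟨(c : O) + (d : O) * E.w, by push_cast; ring⟩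

include E in
theorem intCast_dvd_intCast {n a : ℤ} : (n : O) ∣ (a : O) ↔ n ∣ a := by
  have := E.dvd_iff (n := n) (a := a) (b := 0)
  simpa using this

theorem three_dvd_of_s_dvd {a b : ℤ} (h : E.s ∣ (a : O) + (b : O) * E.w) : (3 : ℤ) ∣ a + b := by
  obtain ⟨y, hy⟩ := h
  obtain ⟨c, d, rfl⟩ := E.repr y
  have := E.ext_coords (a := a) (b := b) (a' := c - 2 * d) (b' := 2 * c - d) (by
    rw [hy]; unfold s; push_cast; linear_combination (2 * (d : O)) * E.w_eq)
  omega

theorem not_s_dvd_one : ¬ E.s ∣ (1 : O) := fun h => by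
  have := E.three_dvd_of_s_dvd (a := 1) (b := 0) (by simpa using h)
  omega

theorem s_ne_zero : E.s ≠ 0 := fun h => E.not_s_dvd_one (by
  have h3 : ((0 : ℤ) : O) = ((-3 : ℤ) : O) := by push_cast; rw [← E.s_sq, h, mul_zero]
  have := E.intCast_inj h3
  omega)

theorem s_dvd_sub_conj (x : O) : E.s ∣ x - E.conj x := by
  obtain ⟨a, b, rfl⟩ := E.repr x
  exact ⟨b, by rw [E.sub_conj]; ring⟩

/-- A unit congruent to `1` modulo `√-3` is a cube root of unity. -/
theorem cube_eq_one {e : O} (he : e * E.conj e = 1) (hs : E.s ∣ e - 1) : e ^ 3 = 1 := by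
  obtain ⟨a, b, rfl⟩ := E.repr e
  have hn : a * a - a * b + b * b = 1 := by
    apply E.intCast_inj
    simp only [map_add, map_mul, map_intCast, E.conj_w] at he
    push_cast
    linear_combination he + (b : O) * (b : O) * E.w_eq
  have h3 : (3 : ℤ) ∣ (a - 1) + b := E.three_dvd_of_s_dvd (by
    push_cast
    rw [show ((a : O) - 1) + b * E.w = (a : O) + b * E.w - 1 by ring]
    exact hs)
  have ha1 : -1 ≤ a ∧ a ≤ 1 := by constructor <;> nlinarith [sq_nonneg (a - 2 * b)]
  have hb1 : -1 ≤ b ∧ b ≤ 1 := by constructor <;> nlinarith [sq_nonneg (2 * a - b)]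
  have hw3 : E.w ^ 3 = 1 := by linear_combination (E.w - 1) * E.w_eq
  obtain ⟨a1, a2⟩ := ha1
  obtain ⟨b1, b2⟩ := hb1
  interval_cases a <;> interval_cases b
  all_goals first
    | omega
    | norm_num
  · linear_combination (-E.w - 2) * E.w_eq
  · linear_combination hw3

end EisData

end Fermat.Agent.LT.Orbit
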