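import Fermat.Agent.LT.Orbit.Main
import Mathlib.Data.ZMod.Basic
import Mathlib.Data.Fintype.Pi

/-!
# Stabiliser of `X₀` and finiteness of the orbits in a coset
-/

set_option autoImplicit false

open scoped MatrixGroups

namespace Fermat.Agent.LT.Orbit

variable {O : Type*} [CommRing O] (E : EisData O)

/-- The stabiliser of `X₀` in `SL(2, O)` is `SL(2, ℤ)`. -/
theorem skewImage_eq_J_iff (γ : SL(2, O)) :
    skewImage E γ.1 = !![0, 1; -1, 0] ↔ ∀ i j, ∃ n : ℤ, γ.1 i j = (n : O) := by
  have hd : γ.1 0 0 * γ.1 1 1 - γ.1 0 1 * γ.1 1 0 = 1 := by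
    have h := γ.prop
    rwa [Matrix.det_fin_two] at h
  constructor
  · intro h i j
    have h00 := congrFun (congrFun h 0) 0
    have h01 := congrFun (congrFun h 0) 1
    have h10 := congrFun (congrFun h 1) 0
    have h11 := congrFun (congrFun h 1) 1
    simp [skewImage] at h00 h01 h10 h11
    refine E.conj_eq_self_iff.mp ?_
    fin_cases i <;> fin_cases j <;> simp only [Fin.zero_eta, Fin.mk_one, Fin.isValue]
    · linear_combination γ.1 1 0 * h00 - γ.1 0 0 * h10 - E.conj (γ.1 0 0) * hd
    · linear_combination γ.1 1 1 * h00 - γ.1 0 1 * h10 - E.conj (γ.1 0 1) * hd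
    · linear_combination γ.1 1 0 * h01 - γ.1 0 0 * h11 - E.conj (γ.1 1 0) * hd
    · linear_combination γ.1 1 1 * h01 - γ.1 0 1 * h11 - E.conj (γ.1 1 1) * hd
  · intro h
    have hc : ∀ i j, E.conj (γ.1 i j) = γ.1 i j := fun i j => E.conj_eq_self_iff.mpr (h i j)
    ext i j
    fin_cases i <;> fin_cases j <;> simp [skewImage, hc]
    · ring
    · linear_combination hd
    · linear_combination -hd
    · ring

theorem skewImage_mul (γ δ : Matrix (Fin 2) (Fin 2) O) :
    skewImage E (γ * δ) = γ * skewImage E δ * (γ.map E.conj).transpose := by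
  ext i j
  simp [skewImage, Matrix.mul_apply, Fin.sum_univ_two]
  ring

include E in
/-- Modulo any `M ≠ 0` finitely many elements represent the translates of `X₀`. -/
theorem exists_finite_reps {M : ℤ} (hM : M ≠ 0) (S : Set SL(2, O)) :
    ∃ R : Finset SL(2, O), (∀ r ∈ R, r ∈ S) ∧ ∀ γ ∈ S, ∃ δ : SL(2, O), ∃ r ∈ R, γ = δ * r ∧
      ∀ i j, (M : O) ∣ δ.1 i j - (1 : Matrix (Fin 2) (Fin 2) O) i j := by
  classical
  have : NeZero M.natAbs := ⟨Int.natAbs_ne_zero.mpr hM⟩
  choose ca cb hc using E.repr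
  let key : SL(2, O) → (Fin 2 → Fin 2 → ZMod M.natAbs × ZMod M.natAbs) :=
    fun γ i j => ((ca (γ.1 i j) : ZMod M.natAbs), (cb (γ.1 i j) : ZMod M.natAbs))
  let pick : (Fin 2 → Fin 2 → ZMod M.natAbs × ZMod M.natAbs) → Option SL(2, O) :=
    fun v => if h : ∃ γ ∈ S, key γ = v then some h.choose else none
  refine ⟨(Finset.univ.image pick).filterMap id (fun a a' b ha ha' => by
    simp_all [Option.mem_def]), fun r hr => ?_, fun γ hγ => ?_⟩
  · simp only [Finset.mem_filterMap, Finset.mem_image, Finset.mem_univ, true_and, id] at hr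
    obtain ⟨o, ⟨v, hv⟩, rfl⟩ := hr
    simp only [pick] at hv
    split at hv
    · next h => injection hv with hv'; exact hv' ▸ h.choose_spec.1
    · exact absurd hv (by simp)
  · have hex : ∃ γ' ∈ S, key γ' = key γ := ⟨γ, hγ, rfl⟩
    obtain ⟨hr, hk⟩ := hex.choose_spec
    set r := hex.choose with hrdef
    refine ⟨γ * r⁻¹, r, ?_, by rw [inv_mul_cancel_right], fun i j => ?_⟩
    · simp only [Finset.mem_filterMap, Finset.mem_image, Finset.mem_univ, true_and, id]
      exact ⟨some r, ⟨key γ, by simp only [pick, dif_pos hex, hrdef]⟩, rfl⟩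
    · have hdvd : ∀ i j, (M : O) ∣ γ.1 i j - r.1 i j := by
        intro i j
        have h2 := congrFun (congrFun hk i) j
        simp only [key, Prod.mk.injEq, ZMod.intCast_eq_intCast_iff_dvd_sub, Int.natAbs_dvd] at h2
        have e : γ.1 i j - r.1 i j = ((ca (γ.1 i j) - ca (r.1 i j) : ℤ) : O)
            + ((cb (γ.1 i j) - cb (r.1 i j) : ℤ) : O) * E.w := by
          push_cast
          linear_combination hc (γ.1 i j) - hc (r.1 i j)
        rw [e]
        exact E.dvd_iff.mpr h2
      have hone : (γ * r⁻¹ : SL(2, O)).1 - 1 = (γ.1 - r.1) * (r⁻¹ : SL(2, O)).1 := by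
        rw [Matrix.sub_mul, ← Matrix.SpecialLinearGroup.coe_mul r,
          ← Matrix.SpecialLinearGroup.coe_mul γ, mul_inv_cancel]
        rfl
      have := congrFun (congrFun hone i) j
      rw [Matrix.sub_apply, Matrix.mul_apply] at this
      rw [this]
      exact Finset.dvd_sum fun l _ => Dvd.dvd.mul_right (hdvd i l) _

end Fermat.Agent.LT.Orbit
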