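import Mathlib.Data.Int.GCD
import Mathlib.LinearAlgebra.Matrix.SpecialLinearGroup
import Mathlib.RingTheory.Int.Basic
import Mathlib.Tactic

/-!
# Lifting unimodular matrices modulo `N` to `SL(2, ℤ)`
-/

set_option autoImplicit false

open scoped MatrixGroups

namespace Fermat.Agent.LT.Orbit

/-- If `gcd(c, d, N) = 1` and `c ≠ 0` then some `d + tN` is prime to `c`. -/
theorem exists_coprime_shift {N : ℤ} {c d : ℤ} (hc : c ≠ 0)
    (h : ∀ p : ℕ, p.Prime → (p : ℤ) ∣ c → (p : ℤ) ∣ d → ¬ (p : ℤ) ∣ N) :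
    ∃ t : ℤ, IsCoprime c (d + t * N) := by
  classical
  set S : Finset ℕ := c.natAbs.primeFactors.filter fun p : ℕ => ¬ (p : ℤ) ∣ d with hS
  refine ⟨((∏ p ∈ S, p : ℕ) : ℤ), ?_⟩
  rw [Int.isCoprime_iff_gcd_eq_one]
  by_contra hne
  obtain ⟨p, hp, hpdvd⟩ := Nat.exists_prime_and_dvd hne
  have hpc : (p : ℤ) ∣ c := (Int.natCast_dvd_natCast.mpr hpdvd).trans (Int.gcd_dvd_left _ _)
  have hps := (Int.natCast_dvd_natCast.mpr hpdvd).trans (Int.gcd_dvd_right c _)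
  have hpmem : p ∈ c.natAbs.primeFactors :=
    Nat.mem_primeFactors.mpr ⟨hp, Int.natCast_dvd.mp hpc, Int.natAbs_ne_zero.mpr hc⟩
  by_cases hpd : (p : ℤ) ∣ d
  · rw [dvd_add_right hpd] at hps
    rcases (Nat.prime_iff_prime_int.mp hp).dvd_or_dvd hps with ht | hN
    · obtain ⟨q, hq, hpq⟩ := (Nat.prime_iff.mp hp).exists_mem_finset_dvd
        (Int.natCast_dvd_natCast.mp ht)
      rw [hS, Finset.mem_filter, Nat.mem_primeFactors] at hq
      exact hq.2 (by rwa [← (Nat.prime_dvd_prime_iff_eq hp hq.1.1).mp hpq])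
    · exact h p hp hpc hpd hN
  · have ht : (p : ℤ) ∣ ((∏ q ∈ S, q : ℕ) : ℤ) := Int.natCast_dvd_natCast.mpr
      (Finset.dvd_prod_of_mem _ (by rw [hS, Finset.mem_filter]; exact ⟨hpmem, hpd⟩))
    exact hpd ((dvd_add_left (ht.mul_right N)).mp hps)

/-- `SL(2, ℤ) → SL(2, ℤ/N)` is surjective. -/
theorem exists_sl2_lift {N : ℤ} (hN : N ≠ 0) {A B C D : ℤ} (h : N ∣ A * D - B * C - 1) :
    ∃ g : SL(2, ℤ), N ∣ g 0 0 - A ∧ N ∣ g 0 1 - B ∧ N ∣ g 1 0 - C ∧ N ∣ g 1 1 - D := by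
  obtain ⟨c, hc0, hcC⟩ : ∃ c, c ≠ 0 ∧ N ∣ c - C := by
    rcases eq_or_ne C 0 with rfl | hC
    · exact ⟨N, hN, by simp⟩
    · exact ⟨C, hC, by simp⟩
  obtain ⟨t, ht⟩ := exists_coprime_shift (N := N) (d := D) hc0 (fun p hp hpc hpD hpN => by
    have h1 : (p : ℤ) ∣ A * D - B * c - 1 := hpN.trans (by
      have e : A * D - B * c - 1 = (A * D - B * C - 1) - B * (c - C) := by ring
      rw [e]; exact dvd_sub h (hcC.mul_left B))
    have h2 : (p : ℤ) ∣ (1 : ℤ) := by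
      have h3 : (p : ℤ) ∣ A * D - B * c := dvd_sub (hpD.mul_left A) (hpc.mul_left B)
      simpa using dvd_sub h3 h1
    exact hp.ne_one (Nat.dvd_one.mp (Int.natCast_dvd_natCast.mp (by exact_mod_cast h2))))
  obtain ⟨u, v, huv⟩ := ht
  set d := D + t * N with hd
  set k := (A - v) * u + (B + u) * v with hk
  obtain ⟨e, he⟩ := h
  obtain ⟨f, hf⟩ := hcC
  let g : SL(2, ℤ) := ⟨!![v + k * c, -u + k * d; c, d], by
    rw [Matrix.det_fin_two_of]; linear_combination huv⟩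
  refine ⟨g, ?_, ?_, ⟨f, hf⟩, ⟨t, by show d - D = N * t; rw [hd]; ring⟩⟩
  · show N ∣ v + k * c - A
    refine ⟨-(v * (e - B * f + A * t)), ?_⟩
    rw [hk]
    linear_combination A * huv + (-v) * he + (B * v) * hf
  · show N ∣ -u + k * d - B
    refine ⟨u * (e - B * f + A * t), ?_⟩
    rw [hk]
    linear_combination B * huv + u * he + (-(u * B)) * hf

end Fermat.Agent.LT.Orbit
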