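import Fermat.Agent.LT.Orbit.Eisenstein
import Fermat.Agent.LT.Orbit.Lift

/-!
# Orbits on the hermitian lattice coset `h + N L`

A hermitian `X = (a, z/√-3; conj, d)` of determinant `-1/3` is encoded by the integral
skew-hermitian `√-3 X = !![√-3 a, z; -conj z, √-3 d]`; `X₀` corresponds to `J = !![0, 1; -1, 0]`.
Every such form congruent to `X₀` modulo `N L` is a translate of `X₀` by an element of
`SL(2, O)` congruent to `1` modulo `N`; the stabiliser of `X₀` is `SL(2, ℤ)`.
-/

set_option autoImplicit false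

open scoped MatrixGroups

namespace Fermat.Agent.LT.Orbit

variable {O : Type*} [CommRing O] (E : EisData O)

/-- `√-3` times a point of the coset `X₀ + N L` of determinant `-1/3`, in coordinates. -/
structure CosetPt (N a d : ℤ) (z : O) : Prop where
  norm_eq : z * E.conj z = 1 + 3 * (a : O) * (d : O)
  dvd_z : E.s * (N : O) ∣ z - 1
  dvd_a : N ∣ a
  dvd_d : N ∣ d

/-- `γ J γ*`, entrywise. -/
def skewImage (γ : Matrix (Fin 2) (Fin 2) O) : Matrix (Fin 2) (Fin 2) O :=
  fun i j => γ i 0 * E.conj (γ j 1) - γ i 1 * E.conj (γ j 0)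

/-- The matrix `√-3 X`. -/
def skewForm (a d : ℤ) (z : O) : Matrix (Fin 2) (Fin 2) O :=
  !![E.s * (a : O), z; -E.conj z, E.s * (d : O)]

/-- The fixed vectors of the real structure attached to a point. -/
def IsFixed (a d : ℤ) (z : O) (u : Fin 2 → O) : Prop :=
  z * E.conj (u 0) - E.s * (a : O) * E.conj (u 1) = u 0 ∧
    E.s * (d : O) * E.conj (u 0) + E.conj z * E.conj (u 1) = u 1

variable {E}

theorem IsFixed.comb {a d : ℤ} {z : O} {u v : Fin 2 → O} (hu : IsFixed E a d z u)
    (hv : IsFixed E a d z v) (m n : ℤ) :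
    IsFixed E a d z (fun i => u i * (m : O) + v i * (n : O)) := by
  obtain ⟨u0, u1⟩ := hu
  obtain ⟨v0, v1⟩ := hv
  constructor <;> simp only [map_add, map_mul, map_intCast]
  · linear_combination (m : O) * u0 + (n : O) * v0
  · linear_combination (m : O) * u1 + (n : O) * v1

theorem skewImage_eq {N a d : ℤ} {z : O} (_h : CosetPt E N a d z) {g : Matrix (Fin 2) (Fin 2) O}
    (h0 : IsFixed E a d z (fun i => g i 0)) (h1 : IsFixed E a d z (fun i => g i 1))
    (hdet : g 0 0 * g 1 1 - g 0 1 * g 1 0 = 1) : skewImage E g = skewForm E a d z := by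
  obtain ⟨a0, a1⟩ := h0
  obtain ⟨b0, b1⟩ := h1
  simp only at a0 a1 b0 b1
  have hd' : E.conj (g 0 0) * E.conj (g 1 1) - E.conj (g 0 1) * E.conj (g 1 0) = 1 := by
    have := congrArg E.conj hdet
    simpa using this
  ext i j
  fin_cases i <;> fin_cases j <;> simp [skewImage, skewForm]
  · linear_combination (-E.conj (g 0 1)) * a0 + E.conj (g 0 0) * b0 + E.s * (a : O) * hd'
  · linear_combination (-E.conj (g 1 1)) * a0 + E.conj (g 1 0) * b0 + z * hd'
  · linear_combination (-E.conj (g 0 1)) * a1 + E.conj (g 0 0) * b1 - E.conj z * hd'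
  · linear_combination (-E.conj (g 1 1)) * a1 + E.conj (g 1 0) * b1 + E.s * (d : O) * hd'

section

variable [IsDomain O] [IsBezout O]

/-- A fixed unimodular vector with its Bezout witness. -/
theorem exists_fixed_unimodular {N a d : ℤ} {z : O} (h : CosetPt E N a d z) :
    ∃ p : Fin 2 → O, IsFixed E a d z p ∧ ∃ x y : O, x * p 0 + y * p 1 = 1 := by
  obtain ⟨hn, ⟨k, hk⟩, -, -⟩ := h
  have hdet : E.conj z * z + E.s * (d : O) * (E.s * (a : O)) = 1 := by
    linear_combination hn + (a : O) * (d : O) * E.s_sq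
  set u0 : O := -E.w - E.conj E.w * z with hu0
  set u1 : O := -(E.conj E.w * (E.s * (d : O))) with hu1
  have hu : IsFixed E a d z ![u0, u1] := by
    constructor <;>
      simp only [Matrix.cons_val_zero, Matrix.cons_val_one, hu0, hu1, map_sub, map_neg, map_mul,
        map_intCast, E.conj_conj, E.conj_s]
    · linear_combination (-E.w) * hdet
    · ring
  have hsu : ¬ E.s ∣ u0 := fun hd => E.not_s_dvd_one (by
    have h1 : E.s ∣ u0 - 1 := ⟨-(E.conj E.w * ((N : O) * k)), by
      rw [hu0]; rw [E.conj_w]; linear_combination (1 + E.w) * hk⟩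
    simpa using dvd_sub hd h1)
  obtain ⟨δ, hδ⟩ := IsBezout.isPrincipal_of_FG (Ideal.span {u0, u1})
    (Submodule.fg_span (Set.toFinite _))
  obtain ⟨p0, hp0⟩ : δ ∣ u0 := Ideal.mem_span_singleton.mp (by
    rw [← Ideal.submodule_span_eq, ← hδ]; exact Ideal.subset_span (by simp))
  obtain ⟨p1, hp1⟩ : δ ∣ u1 := Ideal.mem_span_singleton.mp (by
    rw [← Ideal.submodule_span_eq, ← hδ]; exact Ideal.subset_span (by simp))
  obtain ⟨x, y, hxy⟩ := Ideal.mem_span_pair.mp
    (show δ ∈ Ideal.span {u0, u1} by rw [hδ]; exact Submodule.mem_span_singleton_self δ)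
  have hδ0 : δ ≠ 0 := by
    rintro rfl
    exact hsu ⟨0, by rw [hp0]; ring⟩
  have hxy1 : x * p0 + y * p1 = 1 := mul_left_cancel₀ hδ0 (by
    rw [hp0, hp1] at hxy; linear_combination hxy)
  set r0 : O := z * E.conj p0 - E.s * (a : O) * E.conj p1 with hr0
  set r1 : O := E.s * (d : O) * E.conj p0 + E.conj z * E.conj p1 with hr1
  obtain ⟨f0, f1⟩ := hu
  simp only [Matrix.cons_val_zero, Matrix.cons_val_one, hp0, hp1, map_mul] at f0 f1
  have g0 : E.conj δ * r0 = δ * p0 := by rw [hr0]; linear_combination f0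
  have g1 : E.conj δ * r1 = δ * p1 := by rw [hr1]; linear_combination f1
  set e : O := x * r0 + y * r1 with he
  have hδe : E.conj δ * e = δ := by
    rw [he]; linear_combination x * g0 + y * g1 + δ * hxy1
  have hee : e * E.conj e = 1 := by
    have h2 := congrArg E.conj hδe
    rw [map_mul, E.conj_conj] at h2
    refine mul_left_cancel₀ hδ0 ?_
    linear_combination e * h2 + hδe
  have hcδ0 : E.conj δ ≠ 0 := fun h0 => hδ0 (by rw [← E.conj_conj δ, h0, map_zero])
  have hre0 : r0 = e * p0 := mul_left_cancel₀ hcδ0 (by linear_combination g0 - p0 * hδe)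
  have hre1 : r1 = e * p1 := mul_left_cancel₀ hcδ0 (by linear_combination g1 - p1 * hδe)
  have hsr0 : E.s ∣ r0 - p0 := by
    have e1 : r0 - p0 = (z - 1) * E.conj p0 - E.s * (a : O) * E.conj p1 - (p0 - E.conj p0) := by
      rw [hr0]; ring
    rw [e1]
    refine dvd_sub (dvd_sub ?_ ?_) (E.s_dvd_sub_conj p0)
    · exact dvd_mul_of_dvd_left ⟨(N : O) * k, by rw [hk]; ring⟩ _
    · exact dvd_mul_of_dvd_left (dvd_mul_right _ _) _
  have hsr1 : E.s ∣ r1 - p1 := by
    have e1 : r1 - p1 = E.s * (d : O) * E.conj p0 + (E.conj (z - 1)) * E.conj p1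
        - (p1 - E.conj p1) := by
      rw [hr1, map_sub, map_one]; ring
    rw [e1]
    refine dvd_sub (dvd_add ?_ ?_) (E.s_dvd_sub_conj p1)
    · exact dvd_mul_of_dvd_left (dvd_mul_right _ _) _
    · refine dvd_mul_of_dvd_left ⟨-((N : O) * E.conj k), ?_⟩ _
      rw [hk, map_mul, map_mul, E.conj_s, map_intCast]; ring
  have hse : E.s ∣ e - 1 := by
    have e1 : e - 1 = x * (r0 - p0) + y * (r1 - p1) := by rw [he]; linear_combination hxy1
    rw [e1]; exact dvd_add (hsr0.mul_left x) (hsr1.mul_left y)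
  have he3 : e ^ 3 = 1 := E.cube_eq_one hee hse
  have hce : E.conj (e ^ 2) = e := by
    rw [map_pow]; linear_combination (-(E.conj e ^ 2)) * he3 + e * (e * E.conj e + 1) * hee
  refine ⟨![e ^ 2 * p0, e ^ 2 * p1], ⟨?_, ?_⟩, x * e, y * e, ?_⟩
  · simp only [Matrix.cons_val_zero, Matrix.cons_val_one, map_mul, hce]
    rw [hr0] at hre0
    linear_combination e * hre0
  · simp only [Matrix.cons_val_zero, Matrix.cons_val_one, map_mul, hce]
    rw [hr1] at hre1
    linear_combination e * hre1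
  · simp only [Matrix.cons_val_zero, Matrix.cons_val_one]
    linear_combination (x * p0 + y * p1) * he3 + hxy1

/-- A basis of determinant one of the fixed lattice. -/
theorem exists_fixed_basis {N a d : ℤ} {z : O} (h : CosetPt E N a d z) :
    ∃ g : Matrix (Fin 2) (Fin 2) O, IsFixed E a d z (fun i => g i 0) ∧
      IsFixed E a d z (fun i => g i 1) ∧ g 0 0 * g 1 1 - g 0 1 * g 1 0 = 1 := by
  obtain ⟨p, hp, x, y, hxy⟩ := exists_fixed_unimodular h
  obtain ⟨hp0, hp1⟩ := hp
  have hn := h.norm_eq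
  have hdet : E.conj z * z + E.s * (d : O) * (E.s * (a : O)) = 1 := by
    linear_combination hn + (a : O) * (d : O) * E.s_sq
  have hdetc : E.conj (p 0) * E.conj x + E.conj (p 1) * E.conj y = 1 := by
    have := congrArg E.conj hxy
    simp only [map_add, map_mul, map_one] at this
    linear_combination this
  set r0 : O := z * E.conj (-y) - E.s * (a : O) * E.conj x with hr0
  set r1 : O := E.s * (d : O) * E.conj (-y) + E.conj z * E.conj x with hr1
  have hpr : p 0 * r1 - p 1 * r0 = 1 := by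
    rw [hr0, hr1, map_neg]
    linear_combination (-(E.s * (a : O) * E.conj x + z * E.conj y)) * hp1
      + (-(E.s * (d : O) * -E.conj y + E.conj z * E.conj x)) * hp0
      + (E.conj (p 0) * E.conj x + E.conj (p 1) * E.conj y) * hdet + hdetc
  set k : O := x * (r0 - -y) + y * (r1 - x) with hk
  have hk0 : r0 = -y + k * p 0 := by
    rw [hk]; linear_combination (-y) * hpr - r0 * hxy
  have hk1 : r1 = x + k * p 1 := by
    rw [hk]; linear_combination x * hpr - r1 * hxy
  -- `r` is also mapped back to `(-y, x)`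
  have hr0' : z * E.conj r0 - E.s * (a : O) * E.conj r1 = -y := by
    rw [hr0, hr1]
    simp only [map_sub, map_add, map_mul, map_neg, map_intCast, E.conj_conj, E.conj_s]
    linear_combination (-y) * hdet
  have hr1' : E.s * (d : O) * E.conj r0 + E.conj z * E.conj r1 = x := by
    rw [hr0, hr1]
    simp only [map_sub, map_add, map_mul, map_neg, map_intCast, E.conj_conj, E.conj_s]
    linear_combination x * hdet
  have hkc : k + E.conj k = 0 := by
    rw [hk0, hk1] at hr0' hr1'
    simp only [map_add, map_mul] at hr0' hr1'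
    have a0 : (k + E.conj k) * p 0 = 0 := by
      rw [hr0, map_neg] at hk0
      simp only [map_neg] at hr0'
      linear_combination hr0' - hk0 - E.conj k * hp0
    have a1 : (k + E.conj k) * p 1 = 0 := by
      rw [hr1, map_neg] at hk1
      simp only [map_neg] at hr1'
      linear_combination hr1' - hk1 - E.conj k * hp1
    linear_combination x * a0 + y * a1 - (k + E.conj k) * hxy
  obtain ⟨A, B, hAB⟩ := E.repr k
  have hB : B = 2 * A := by
    have h2 : ((2 * A - B : ℤ) : O) = ((0 : ℤ) : O) := by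
      rw [hAB] at hkc
      simp only [map_add, map_mul, map_intCast, E.conj_w] at hkc
      push_cast; linear_combination hkc
    have := E.intCast_inj h2; omega
  subst hB
  set t : O := (A : O) * E.w with ht
  have htk : k = t - E.conj t := by
    rw [ht, hAB, map_mul, map_intCast, E.conj_w]; push_cast; ring
  refine ⟨!![p 0, -y + t * p 0; p 1, x + t * p 1], ⟨?_, ?_⟩, ⟨?_, ?_⟩, ?_⟩
  · simpa using hp0
  · simpa using hp1
  · simp only [Matrix.of_apply, Matrix.cons_val', Matrix.cons_val_zero, Matrix.cons_val_one,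
      Matrix.cons_val_fin_one, map_add, map_mul, map_neg]
    rw [hr0, map_neg] at hk0
    linear_combination hk0 + E.conj t * hp0 + p 0 * htk
  · simp only [Matrix.of_apply, Matrix.cons_val', Matrix.cons_val_zero, Matrix.cons_val_one,
      Matrix.cons_val_fin_one, map_add, map_mul, map_neg]
    rw [hr1, map_neg] at hk1
    linear_combination hk1 + E.conj t * hp1 + p 1 * htk
  · simp only [Matrix.of_apply, Matrix.cons_val', Matrix.cons_val_zero, Matrix.cons_val_one,
      Matrix.cons_val_fin_one]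
    linear_combination hxy

/-- **One orbit.** -/
theorem exists_skewImage_eq {N a d : ℤ} {z : O} (hN : N ≠ 0) (h : CosetPt E N a d z) :
    ∃ γ : SL(2, O), (∀ i j, (N : O) ∣ γ.1 i j - (1 : Matrix (Fin 2) (Fin 2) O) i j) ∧
      skewImage E γ.1 = skewForm E a d z := by
  obtain ⟨g, hg0, hg1, hdet⟩ := exists_fixed_basis h
  obtain ⟨hn, ⟨k, hk⟩, ⟨a', ha⟩, ⟨d', hd⟩⟩ := h
  -- the entries are rational integers modulo `N`
  have hreal : ∀ x : O, (E.s * (N : O)) ∣ x - E.conj x → ∃ P : ℤ, (N : O) ∣ x - (P : O) := by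
    intro x hx
    obtain ⟨A, B, rfl⟩ := E.repr x
    rw [E.sub_conj, mul_comm (B : O)] at hx
    refine ⟨A, ?_⟩
    have := (mul_dvd_mul_iff_left E.s_ne_zero).mp hx
    rw [show (A : O) + (B : O) * E.w - (A : O) = (B : O) * E.w by ring]
    exact this.mul_right E.w
  have hcol : ∀ u : Fin 2 → O, IsFixed E a d z u → ∀ i, ∃ P : ℤ, (N : O) ∣ u i - (P : O) := by
    intro u hu i
    refine hreal _ ?_
    obtain ⟨u0, u1⟩ := hu
    fin_cases i
    · refine ⟨k * E.conj (u 0) - (a' : O) * E.conj (u 1), ?_⟩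
      show u 0 - E.conj (u 0) = _
      have : (a : O) = (N : O) * a' := by exact_mod_cast congrArg (fun t : ℤ => (t : O)) ha
      linear_combination -u0 + E.conj (u 0) * hk - E.s * E.conj (u 1) * this
    · refine ⟨(d' : O) * E.conj (u 0) - E.conj k * E.conj (u 1), ?_⟩
      show u 1 - E.conj (u 1) = _
      have : (d : O) = (N : O) * d' := by exact_mod_cast congrArg (fun t : ℤ => (t : O)) hd
      have hk' := congrArg E.conj hk
      simp only [map_sub, map_mul, map_one, map_intCast, E.conj_s] at hk'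
      linear_combination -u1 + E.conj (u 1) * hk' + E.s * E.conj (u 0) * this
  obtain ⟨P00, q00⟩ := hcol _ hg0 0
  obtain ⟨P10, q10⟩ := hcol _ hg0 1
  obtain ⟨P01, q01⟩ := hcol _ hg1 0
  obtain ⟨P11, q11⟩ := hcol _ hg1 1
  have hP : N ∣ P00 * P11 - P01 * P10 - 1 := by
    rw [← E.intCast_dvd_intCast]
    obtain ⟨c00, e00⟩ := q00
    obtain ⟨c10, e10⟩ := q10
    obtain ⟨c01, e01⟩ := q01
    obtain ⟨c11, e11⟩ := q11
    refine ⟨-(c00 * (P11 : O)) - g 0 0 * c11 + c01 * (P10 : O) + g 0 1 * c10, ?_⟩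
    push_cast
    linear_combination hdet - (P11 : O) * e00 - g 0 0 * e11 + (P10 : O) * e01 + g 0 1 * e10
  obtain ⟨m, m00, m01, m10, m11⟩ := exists_sl2_lift hN hP
  have hm : m 0 0 * m 1 1 - m 0 1 * m 1 0 = 1 := by
    have := m.prop
    rwa [Matrix.det_fin_two] at this
  -- `γ = g m⁻¹`
  let γm : Matrix (Fin 2) (Fin 2) O :=
    fun i j => g i 0 * ((m⁻¹ 0 j : ℤ) : O) + g i 1 * ((m⁻¹ 1 j : ℤ) : O)
  have i00 : m⁻¹ 0 0 = m 1 1 := by
    simp [Matrix.SpecialLinearGroup.coe_inv, Matrix.adjugate_fin_two]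
  have i01 : m⁻¹ 0 1 = -m 0 1 := by
    simp [Matrix.SpecialLinearGroup.coe_inv, Matrix.adjugate_fin_two]
  have i10 : m⁻¹ 1 0 = -m 1 0 := by
    simp [Matrix.SpecialLinearGroup.coe_inv, Matrix.adjugate_fin_two]
  have i11 : m⁻¹ 1 1 = m 0 0 := by
    simp [Matrix.SpecialLinearGroup.coe_inv, Matrix.adjugate_fin_two]
  have hmO : (m 0 0 : O) * (m 1 1 : O) - (m 0 1 : O) * (m 1 0 : O) = 1 := by
    have e := congrArg (fun t : ℤ => (t : O)) hm
    push_cast at e
    exact e
  have hγdet : γm 0 0 * γm 1 1 - γm 0 1 * γm 1 0 = 1 := by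
    simp only [γm, i00, i01, i10, i11]
    push_cast
    linear_combination ((m 0 0 : O) * (m 1 1 : O) - (m 0 1 : O) * (m 1 0 : O)) * hdet + hmO
  have hγ0 : IsFixed E a d z (fun i => γm i 0) := hg0.comb hg1 _ _
  have hγ1 : IsFixed E a d z (fun i => γm i 1) := hg0.comb hg1 _ _
  refine ⟨⟨γm, by rw [Matrix.det_fin_two]; exact hγdet⟩, fun i j => ?_,
    skewImage_eq ⟨hn, ⟨k, hk⟩, ⟨a', ha⟩, ⟨d', hd⟩⟩ hγ0 hγ1 hγdet⟩
  · have step : ∀ {P m' : ℤ} {x : O}, N ∣ m' - P → (N : O) ∣ x - (P : O) → (N : O) ∣ x - (m' : O) := by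
      intro P m' x h1 h2
      have := dvd_sub h2 (E.intCast_dvd_intCast.mpr h1)
      push_cast at this
      simpa using this
    have s00 := step m00 q00
    have s10 := step m10 q10
    have s01 := step m01 q01
    have s11 := step m11 q11
    fin_cases i <;> fin_cases j <;> simp [γm, Matrix.adjugate_fin_two]
    · have e : g 0 0 * (m 1 1 : O) + -(g 0 1 * (m 1 0 : O)) - 1
          = (g 0 0 - (m 0 0 : O)) * (m 1 1 : O) - (g 0 1 - (m 0 1 : O)) * (m 1 0 : O) := by
        linear_combination hmO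
      rw [e]; exact dvd_sub (s00.mul_right _) (s01.mul_right _)
    · have e : -(g 0 0 * (m 0 1 : O)) + g 0 1 * (m 0 0 : O)
          = (g 0 1 - (m 0 1 : O)) * (m 0 0 : O) - (g 0 0 - (m 0 0 : O)) * (m 0 1 : O) := by
        ring
      rw [e]; exact dvd_sub (s01.mul_right _) (s00.mul_right _)
    · have e : g 1 0 * (m 1 1 : O) + -(g 1 1 * (m 1 0 : O))
          = (g 1 0 - (m 1 0 : O)) * (m 1 1 : O) - (g 1 1 - (m 1 1 : O)) * (m 1 0 : O) := by
        ring
      rw [e]; exact dvd_sub (s10.mul_right _) (s11.mul_right _)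
    · have e : -(g 1 0 * (m 0 1 : O)) + g 1 1 * (m 0 0 : O) - 1
          = (g 1 1 - (m 1 1 : O)) * (m 0 0 : O) - (g 1 0 - (m 1 0 : O)) * (m 0 1 : O) := by
        linear_combination hmO
      rw [e]; exact dvd_sub (s11.mul_right _) (s10.mul_right _)

end

end Fermat.Agent.LT.Orbit
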